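/-
GATE-J27 (S27) / node B6 GJ27-INJ, part 1 (helper38): the RANK-FREE UNIQUENESS CORE.

Abstract frame of `GH/Vocab.lean` (`R : RedData K F k Ft`, `H : LSpaceHyp R g c`); NO hypothesis on
the rank of the valuation ring `R.A`, NO completeness, NO algebraic closedness.

The UPFV system `u ^ m = f * v` (helper19) with `u ∈ L(Du)`, `f ∈ L(Df)`, `v ∈ L(Dv)` Gauss-integral
and reducing to `1` has, up to constants, only the trivial solution as soon as the linearised system
on the special fibre is injective modulo constants (`SpecialJac.const_of_jac`, helper12):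

* `exists_eq_mul_of_red_eq_zero` : `x ∈ L(D) ∩ Rw`, `red x = 0` ⟹ `x = π * y` with `π ∈ 𝔪_A`,
  `y ∈ L(D) ∩ Rw`, and (`π = 0` or `red y ≠ 0`);
* `exists_normal_form`           : `x ∈ L(D) ∩ Rw` (`D ≥ 0`), `red x = 1` ⟹ `x = α * (1 + π * y)`
  with `α ∈ Aˣ`, `π ∈ 𝔪_A`, `y ∈ L(D) ∩ Rw`, and (`π = 0` or `red y` is NOT a constant);
* `exists_common3`               : three elements of a valuation ring have a common divisor which is
  one of them;
* `core`                         : the normalised uniqueness statement (the "Hensel uniqueness" step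
  done by hand: divide the difference of two solutions by the gcd of its coordinates and reduce);
* `const_of_upfv`                : `u ^ m = f * v`, `red u = red f = 1` ⟹ `f` is a constant of `A`.
-/
import Mathlib
import Fermat.Agent.GR.W.K2.Upfv.Spaces
import Fermat.Agent.GR.W.K2.Upfv.SpecialJac

set_option autoImplicit false
set_option linter.unusedSectionVars false

noncomputable section

open AlgebraicCurve Module IsLocalRing

namespace Fermat.Agent.GJ27.Inj

open Fermat.Agent.RRh45 Fermat.Agent.GJ.S37MinDiv Fermat.Agent.GJ.J1 Fermat.Agent.GJ.S37LSpace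
  Fermat.Agent.GJ.S37ROfSurj Fermat.Agent.GH Fermat.Agent.GH.L Fermat.Agent.GR.W.K2.LatticeBasis
  Fermat.Agent.GR.W.K2.Upfv

/-! ### three elements of a valuation ring -/

/-- two elements of a valuation ring have a common divisor which is one of them. -/
theorem exists_common2 {A : Type*} [CommRing A] [IsDomain A] [ValuationRing A] (x y : A) :
    ∃ π εx εy : A, x = εx * π ∧ y = εy * π ∧ (εx = 1 ∨ εy = 1) := by
  rcases ValuationRing.dvd_total x y with ⟨e, rfl⟩ | ⟨e, rfl⟩
  · exact ⟨x, 1, e, (one_mul x).symm, mul_comm x e, Or.inl rfl⟩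
  · exact ⟨y, e, 1, mul_comm y e, (one_mul y).symm, Or.inr rfl⟩

/-- three elements of a valuation ring have a common divisor which is one of them. -/
theorem exists_common3 {A : Type*} [CommRing A] [IsDomain A] [ValuationRing A] (x y z : A) :
    ∃ π εx εy εz : A, x = εx * π ∧ y = εy * π ∧ z = εz * π ∧ (εx = 1 ∨ εy = 1 ∨ εz = 1) := by
  obtain ⟨π₁, εx, εy, hx, hy, h1⟩ := exists_common2 x y
  obtain ⟨π, δ, εz, hπ₁, hz, h2⟩ := exists_common2 π₁ z
  rcases h2 with h2 | h2
  · refine ⟨π, εx, εy, εz, ?_, ?_, hz, ?_⟩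
    · rw [hx, hπ₁, h2, one_mul]
    · rw [hy, hπ₁, h2, one_mul]
    · rcases h1 with h1 | h1
      · exact Or.inl h1
      · exact Or.inr (Or.inl h1)
  · refine ⟨π, εx * δ, εy * δ, εz, ?_, ?_, hz, Or.inr (Or.inr h2)⟩
    · rw [hx, hπ₁, mul_assoc]
    · rw [hy, hπ₁, mul_assoc]

variable {K F k Ft : Type*} [Field K] [Field F] [Algebra K F] [Field k] [Field Ft] [Algebra k Ft]

section Basics

variable (R : RedData K F k Ft)

/-- the coefficient embedding `A → Rw` as a ring homomorphism. -/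
def iA : R.A →+* R.Rw where
  toFun a := ofA R a
  map_one' := Subtype.ext (by simp)
  map_mul' a b := Subtype.ext (by simp)
  map_zero' := Subtype.ext (by simp)
  map_add' a b := Subtype.ext (by simp)

theorem coe_iA (a : R.A) : ((iA R a : R.Rw) : F) = algebraMap K F (a : K) := rfl

theorem red_iA (a : R.A) : R.red (iA R a) = algebraMap k Ft (R.res a) := R.red_algebraMap a

theorem iA_injective : Function.Injective (iA R) := by
  intro a b h
  have h1 := congrArg (fun x : R.Rw => (x : F)) h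
  simp only [coe_iA] at h1
  exact Subtype.ext ((algebraMap K F).injective h1)

theorem red_iA_of_res_eq_zero {π : R.A} (h : R.res π = 0) : R.red (iA R π) = 0 := by
  rw [red_iA, h, map_zero]

/-- `res t = 0` iff `t` lies in the maximal ideal of `A`. -/
theorem res_eq_zero_iff_mem' (t : R.A) : R.res t = 0 ↔ t ∈ maximalIdeal R.A := by
  rw [res_eq_zero_iff, ValuationSubring.valuation_lt_one_iff]

theorem isUnit_of_res_ne_zero {α : R.A} (h : R.res α ≠ 0) : IsUnit α := by
  by_contra hnu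
  exact h ((res_eq_zero_iff_mem' R α).mpr ((mem_maximalIdeal α).mpr hnu))

/-- a `K`-multiple of an element of `L(D)`. -/
theorem iA_mul_mem {D : Divisor K F} (a : R.A) {y : R.Rw} (hy : (y : F) ∈ riemannRochSpace D) :
    ((iA R a * y : R.Rw) : F) ∈ riemannRochSpace D := by
  rw [Subring.coe_mul, coe_iA, ← Algebra.smul_def]
  exact Submodule.smul_mem _ _ hy

end Basics

variable {R : RedData K F k Ft} {g c : ℤ}
variable [FiniteResidues K F] [HasPrincipalDivisors K F] [Nonempty (Place K F)]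
variable [FiniteResidues k Ft] [HasPrincipalDivisors k Ft] [Nonempty (Place k Ft)]
variable [Infinite k]

/-! ### normal forms -/

/-- **normal form, `red x = 0`**: `x = π * y` with `π ∈ 𝔪_A` and `red y ≠ 0` (or `π = 0`). -/
theorem exists_eq_mul_of_red_eq_zero (H : LSpaceHyp R g c) {D : Divisor K F} (x : R.Rw)
    (hxD : (x : F) ∈ riemannRochSpace D) (hx0 : R.red x = 0) :
    ∃ (π : R.A) (y : R.Rw), R.res π = 0 ∧ (y : F) ∈ riemannRochSpace D ∧ x = iA R π * y ∧
      (π = 0 ∨ R.red y ≠ 0) := by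
  rcases eq_or_ne x 0 with rfl | hx
  · exact ⟨0, 0, map_zero _, by simp, by simp, Or.inl rfl⟩
  have hxF : (x : F) ≠ 0 := fun h => hx (Subtype.ext h)
  obtain ⟨a, ha0, hmem, hred⟩ := exists_unit_smul H hxF
  set y : R.Rw := ⟨_, hmem⟩ with hy
  have hyF : (y : F) = algebraMap K F a * (x : F) := rfl
  have haF : algebraMap K F a ≠ 0 := (map_ne_zero_iff _ (algebraMap K F).injective).mpr ha0
  -- `y` is a unit of `Rw`
  have hyu : IsUnit y := by
    by_contra hnu
    exact hred ((R.red_eq_zero_iff y).mpr ((mem_maximalIdeal y).mpr hnu))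
  obtain ⟨w, hw⟩ := hyu
  have hwinv : (y : F) * (((w⁻¹ : (R.Rw)ˣ) : R.Rw) : F) = 1 := by
    rw [← hw, ← Subring.coe_mul, Units.mul_inv]; rfl
  -- `a⁻¹ ∈ A`
  have hainv : algebraMap K F a⁻¹ = ((x * ((w⁻¹ : (R.Rw)ˣ) : R.Rw) : R.Rw) : F) := by
    have h2 : algebraMap K F a * ((x : F) * (((w⁻¹ : (R.Rw)ˣ) : R.Rw) : F)) = 1 := by
      rw [← mul_assoc, ← hyF]; exact hwinv
    rw [Subring.coe_mul, map_inv₀]
    exact (eq_inv_of_mul_eq_one_right h2).symm
  have hπA : a⁻¹ ∈ R.A := (R.mem_A_iff _).mpr (by rw [hainv]; exact SetLike.coe_mem _)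
  have hxy : x = iA R ⟨a⁻¹, hπA⟩ * y := by
    apply Subtype.ext
    rw [Subring.coe_mul, coe_iA, hyF, ← mul_assoc, ← map_mul, inv_mul_cancel₀ ha0, map_one, one_mul]
  refine ⟨⟨a⁻¹, hπA⟩, y, ?_, ?_, hxy, Or.inr hred⟩
  · have h1 : R.red (iA R ⟨a⁻¹, hπA⟩) * R.red y = 0 := by rw [← map_mul, ← hxy, hx0]
    rcases mul_eq_zero.mp h1 with h2 | h2
    · rw [red_iA] at h2
      exact (map_eq_zero_iff _ (algebraMap k Ft).injective).mp h2
    · exact absurd h2 hred
  · rw [hyF, ← Algebra.smul_def]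
    exact Submodule.smul_mem _ _ hxD

/-- **normal form, `red x = 1`** (`D ≥ 0`): `x = α * (1 + π * y)` with `α` a unit of `A` reducing to
`1`, `π ∈ 𝔪_A`, `y ∈ L(D) ∩ Rw` and, unless `π = 0`, the reduction of `y` is NOT a constant. -/
theorem exists_normal_form (H : LSpaceHyp R g c) {D : Divisor K F} (hD : 0 ≤ D) (x : R.Rw)
    (hxD : (x : F) ∈ riemannRochSpace D) (hx1 : R.red x = 1) :
    ∃ (α : (R.A)ˣ) (π : R.A) (y : R.Rw), R.res (α : R.A) = 1 ∧ R.res π = 0 ∧
      (y : F) ∈ riemannRochSpace D ∧ x = iA R α * (1 + iA R π * y) ∧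
      (π = 0 ∨ ∀ t : k, R.red y ≠ algebraMap k Ft t) := by
  classical
  have h1D : ((1 : R.Rw) : F) ∈ riemannRochSpace D := by
    simpa using one_mem_riemannRochSpace hD
  have hred1 : R.red (1 : R.Rw) ≠ 0 := by rw [map_one]; exact one_ne_zero
  obtain ⟨r, b, hb0, -, hbD, hbk, -, hbK, hbspan, hbgauss⟩ :=
    Spaces.exists_latticeBasis_first H D 1 h1D hred1
  obtain ⟨s, hs, hsred⟩ := Spaces.exists_coords b (fun a h => (hbgauss a).mp h) x
    (by rw [hbspan]; exact hxD)
  -- the reduced coordinates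
  have hcoef : R.res (s 0) = 1 ∧ ∀ i : Fin r, R.res (s i.succ) = 0 := by
    have h0 : ∑ j, (R.res (s j) - if j = 0 then 1 else 0) • R.red (b j) = 0 := by
      simp only [sub_smul, Finset.sum_sub_distrib, ite_smul, one_smul, zero_smul]
      rw [← hsred, hx1, Finset.sum_ite_eq' Finset.univ (0 : Fin (r + 1)) fun j => R.red (b j)]
      simp [hb0]
    have h1 := Fintype.linearIndependent_iff.mp hbk _ h0
    refine ⟨?_, fun i => ?_⟩
    · have := h1 0
      simpa [sub_eq_zero] using this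
    · have := h1 i.succ
      simpa [Fin.succ_ne_zero] using this
  obtain ⟨hs0, hsi⟩ := hcoef
  obtain ⟨α, hα⟩ := isUnit_of_res_ne_zero R (α := s 0) (by rw [hs0]; exact one_ne_zero)
  -- `x` in `Rw`-form
  have hxsum : x = iA R (s 0) + ∑ i : Fin r, iA R (s i.succ) * b i.succ := by
    apply Subtype.ext
    rw [hs, Fin.sum_univ_succ, Subring.coe_add, AddSubmonoidClass.coe_finsetSum, hb0, coe_iA,
      OneMemClass.coe_one, Algebra.smul_def, mul_one]
    congr 1
    refine Finset.sum_congr rfl fun i _ => ?_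
    rw [Subring.coe_mul, coe_iA, Algebra.smul_def]
  by_cases htail : (fun i : Fin r => ((s i.succ : R.A) : K)) = 0
  · -- `x` is a constant
    refine ⟨α, 0, 0, by rw [hα]; exact hs0, map_zero _, by simp, ?_, Or.inl rfl⟩
    have hz : ∀ i : Fin r, s i.succ = 0 := fun i => Subtype.ext (congrFun htail i)
    rw [hxsum, hα]
    simp [hz]
  · obtain ⟨i₀, hi₀, hmax⟩ := exists_max_coeff R _ htail
    set t : Fin r → R.A := fun i =>
      ⟨((s i.succ : R.A) : K) / ((s i₀.succ : R.A) : K), div_mem_A R _ hi₀ hmax i⟩ with ht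
    have hst : ∀ i, s i.succ = s i₀.succ * t i := by
      intro i
      apply Subtype.ext
      show ((s i.succ : R.A) : K) = ((s i₀.succ : R.A) : K) *
        (((s i.succ : R.A) : K) / ((s i₀.succ : R.A) : K))
      rw [mul_div_cancel₀ _ hi₀]
    have ht₀ : t i₀ = 1 := Subtype.ext (div_self hi₀)
    set y : R.Rw := ∑ i : Fin r, iA R (t i) * b i.succ with hy
    have hyD : (y : F) ∈ riemannRochSpace D := by
      rw [hy, AddSubmonoidClass.coe_finsetSum]
      exact Submodule.sum_mem _ fun i _ => iA_mul_mem R _ (hbD _)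
    have hyred : R.red y = ∑ i : Fin r, R.res (t i) • R.red (b i.succ) := by
      rw [hy, map_sum]
      refine Finset.sum_congr rfl fun i _ => ?_
      rw [map_mul, red_iA, Algebra.smul_def]
    set π : R.A := ((α⁻¹ : (R.A)ˣ) : R.A) * s i₀.succ with hπ
    refine ⟨α, π, y, by rw [hα]; exact hs0, by rw [hπ, map_mul, hsi, mul_zero], hyD, ?_,
      Or.inr fun a ha => ?_⟩
    · rw [hxsum, hy, Finset.mul_sum, mul_add, mul_one, hα, Finset.mul_sum]
      congr 1
      refine Finset.sum_congr rfl fun i _ => ?_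
      rw [hst i, hπ, map_mul, map_mul, ← hα]
      have : iA R (α : R.A) * iA R ((α⁻¹ : (R.A)ˣ) : R.A) = 1 := by
        rw [← map_mul, Units.mul_inv, map_one]
      calc iA R (s i₀.succ) * iA R (t i) * b i.succ
          = (iA R (α : R.A) * iA R ((α⁻¹ : (R.A)ˣ) : R.A)) *
              (iA R (s i₀.succ) * iA R (t i) * b i.succ) := by rw [this, one_mul]
        _ = _ := by ring
    · -- the reduction of `y` is not a constant
      have h0 : ∑ j : Fin (r + 1), (Fin.cons (-a) (fun i => R.res (t i)) : Fin (r + 1) → k) j •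
          R.red (b j) = 0 := by
        rw [Fin.sum_univ_succ]
        simp only [Fin.cons_zero, Fin.cons_succ]
        rw [← hyred, ha, hb0, map_one, Algebra.smul_def, mul_one, map_neg, neg_add_cancel]
      have h1 := Fintype.linearIndependent_iff.mp hbk _ h0 i₀.succ
      simp only [Fin.cons_succ] at h1
      rw [ht₀, map_one] at h1
      exact one_ne_zero h1

/-! ### the uniqueness core -/

/-- **normalised uniqueness**: if `(1 + πu a) ^ m = (1 + πf b) v` with `a ∈ L(Du)`, `b ∈ L(Df)`,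
`v ∈ L(Dv)` Gauss-integral, `πu, πf ∈ 𝔪_A`, and the reductions of `a`, `b` are not constants (unless
`πu = 0`, resp. `πf = 0`), then `πf = 0`.  The special-fibre input is helper12's `const_of_jac`. -/
theorem core (H : LSpaceHyp R g c) {G G₂ : Divisor k Ft} (hG : 0 ≤ G) (hG₂ : 0 ≤ G₂)
    (hdisj : ∀ v : Place k Ft, G v = 0 ∨ G₂ v = 0)
    (hL : ∀ x ∈ riemannRochSpace G, ∃ a : k, x = algebraMap k Ft a)
    (hL₂ : ∀ x ∈ riemannRochSpace G₂, ∃ a : k, x = algebraMap k Ft a)
    {m : ℕ} (hmk : (m : k) ≠ 0) {Du Df Dv : Divisor K F}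
    (hU : redSpace R Du ≤ riemannRochSpace (G + G₂))
    (hF : redSpace R Df ≤ riemannRochSpace (m • G))
    (hV : redSpace R Dv ≤ riemannRochSpace (m • G₂))
    (h1V : (1 : F) ∈ riemannRochSpace Dv)
    (πu πf : R.A) (a b v : R.Rw) (hπu : R.res πu = 0) (hπf : R.res πf = 0)
    (ha : (a : F) ∈ riemannRochSpace Du) (hb : (b : F) ∈ riemannRochSpace Df)
    (hv : (v : F) ∈ riemannRochSpace Dv)
    (hau : πu = 0 ∨ ∀ t : k, R.red a ≠ algebraMap k Ft t)
    (hbf : πf = 0 ∨ ∀ t : k, R.red b ≠ algebraMap k Ft t)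
    (heq : (1 + iA R πu * a) ^ m = (1 + iA R πf * b) * v) : πf = 0 := by
  -- `red v = 1`
  have hredU : R.red (1 + iA R πu * a) = 1 := by
    rw [map_add, map_one, map_mul, red_iA_of_res_eq_zero R hπu, zero_mul, add_zero]
  have hredΦ : R.red (1 + iA R πf * b) = 1 := by
    rw [map_add, map_one, map_mul, red_iA_of_res_eq_zero R hπf, zero_mul, add_zero]
  have hv1 : R.red v = 1 := by
    have := congrArg R.red heq
    rw [map_pow, hredU, one_pow, map_mul, hredΦ, one_mul] at this
    exact this.symm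
  -- `v = 1 + πv * c'`
  have hx0 : R.red (v - 1) = 0 := by rw [map_sub, hv1, map_one, sub_self]
  have hxD : ((v - 1 : R.Rw) : F) ∈ riemannRochSpace Dv := by
    rw [AddSubgroupClass.coe_sub, OneMemClass.coe_one]
    exact sub_mem hv h1V
  obtain ⟨πv, c', hπv, hc, hvc, hcv⟩ := exists_eq_mul_of_red_eq_zero H (v - 1) hxD hx0
  have hv' : v = 1 + iA R πv * c' := by rw [← hvc]; ring
  -- the gcd of the three coefficients
  obtain ⟨π, εu, εf, εv, hu, hf, hvv, h1⟩ := exists_common3 πu πf πv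
  by_contra hπf0
  have hπ0 : π ≠ 0 := by
    rintro rfl
    exact hπf0 (by rw [hf, mul_zero])
  have hπres : R.res π = 0 := by
    rcases h1 with h | h | h
    · rw [h, one_mul] at hu; rw [← hu]; exact hπu
    · rw [h, one_mul] at hf; rw [← hf]; exact hπf
    · rw [h, one_mul] at hvv; rw [← hvv]; exact hπv
  have hιπ : iA R π ≠ 0 := fun h => hπ0 (iA_injective R (by rw [h, map_zero]))
  -- the identity divided by `π`
  set U : R.Rw := 1 + iA R πu * a with hUdef
  set S : R.Rw := ∑ i ∈ Finset.range m, U ^ i with hS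
  have hgeom : S * (U - 1) = U ^ m - 1 := geom_sum_mul U m
  have hmain : S * (iA R εu * a) =
      iA R εf * b + iA R εv * c' + iA R π * (iA R εf * iA R εv * (b * c')) := by
    apply mul_left_cancel₀ hιπ
    have h2 : U - 1 = iA R π * (iA R εu * a) := by
      rw [hUdef, hu, map_mul]; ring
    have h3 : U ^ m - 1 =
        iA R π * (iA R εf * b + iA R εv * c' + iA R π * (iA R εf * iA R εv * (b * c'))) := by
      rw [heq, hv', hf, hvv, map_mul, map_mul]; ring
    rw [← h3, ← hgeom, h2]; ring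
  -- reduce modulo the maximal ideal
  have hredS : R.red S = (m : Ft) := by
    rw [hS, map_sum]
    simp only [map_pow, hredU, one_pow, Finset.sum_const, Finset.card_range, nsmul_eq_mul, mul_one]
  have hred := congrArg R.red hmain
  simp only [map_mul, map_add, hredS, red_iA, hπres, map_zero, zero_mul, add_zero] at hred
  have hdu : algebraMap k Ft (R.res εu) * R.red a ∈ riemannRochSpace (G + G₂) := by
    rw [← Algebra.smul_def]
    exact Submodule.smul_mem _ _ (hU (mem_redSpace.mpr ⟨a, ha, rfl⟩))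
  have hdf : algebraMap k Ft (R.res εf) * R.red b ∈ riemannRochSpace (m • G) := by
    rw [← Algebra.smul_def]
    exact Submodule.smul_mem _ _ (hF (mem_redSpace.mpr ⟨b, hb, rfl⟩))
  have hdv : algebraMap k Ft (R.res εv) * R.red c' ∈ riemannRochSpace (m • G₂) := by
    rw [← Algebra.smul_def]
    exact Submodule.smul_mem _ _ (hV (mem_redSpace.mpr ⟨c', hc, rfl⟩))
  obtain ⟨⟨a₁, ha₁⟩, -, ⟨c₁, hc₁⟩⟩ :=
    SpecialJac.const_of_jac hG hG₂ hdisj hL hL₂ m hmk hdu hdf hdv hred
  -- the `u`- and `f`-coefficients are non-units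
  have hεu : R.res εu = 0 := by
    by_contra hne
    have hne' : algebraMap k Ft (R.res εu) ≠ 0 :=
      (map_ne_zero_iff _ (algebraMap k Ft).injective).mpr hne
    rcases hau with h | h
    · rw [hu] at h
      rcases mul_eq_zero.mp h with h' | h'
      · exact hne (by rw [h', map_zero])
      · exact hπ0 h'
    · apply h ((R.res εu)⁻¹ * c₁)
      rw [map_mul, map_inv₀, ← hc₁, inv_mul_cancel_left₀ hne']
  have hεf : R.res εf = 0 := by
    by_contra hne
    have hne' : algebraMap k Ft (R.res εf) ≠ 0 :=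
      (map_ne_zero_iff _ (algebraMap k Ft).injective).mpr hne
    rcases hbf with h | h
    · exact hπf0 h
    · apply h ((R.res εf)⁻¹ * a₁)
      rw [map_mul, map_inv₀, ← ha₁, inv_mul_cancel_left₀ hne']
  rcases h1 with h | h | h
  · rw [h, map_one] at hεu; exact one_ne_zero hεu
  · rw [h, map_one] at hεf; exact one_ne_zero hεf
  · rw [hεu, hεf, h, map_one, map_one, map_zero, zero_mul, zero_mul, mul_zero, zero_add,
      one_mul] at hred
    rcases hcv with h' | h'
    · rw [h, one_mul] at hvv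
      exact hπ0 (by rw [← hvv, h'])
    · exact h' hred.symm

/-- **uniqueness of the UPFV solution up to constants**: a Gauss-integral solution of
`u ^ m = f * v` in the three Riemann–Roch spaces, with `u` and `f` reducing to `1`, has `f`
CONSTANT. -/
theorem const_of_upfv (H : LSpaceHyp R g c) {G G₂ : Divisor k Ft} (hG : 0 ≤ G) (hG₂ : 0 ≤ G₂)
    (hdisj : ∀ v : Place k Ft, G v = 0 ∨ G₂ v = 0)
    (hL : ∀ x ∈ riemannRochSpace G, ∃ a : k, x = algebraMap k Ft a)
    (hL₂ : ∀ x ∈ riemannRochSpace G₂, ∃ a : k, x = algebraMap k Ft a)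
    {m : ℕ} (hmk : (m : k) ≠ 0) {Du Df Dv : Divisor K F} (hDu : 0 ≤ Du) (hDf : 0 ≤ Df)
    (hU : redSpace R Du ≤ riemannRochSpace (G + G₂))
    (hF : redSpace R Df ≤ riemannRochSpace (m • G))
    (hV : redSpace R Dv ≤ riemannRochSpace (m • G₂))
    (h1V : (1 : F) ∈ riemannRochSpace Dv)
    (u f v : R.Rw) (hu1 : R.red u = 1) (hf1 : R.red f = 1)
    (hu : (u : F) ∈ riemannRochSpace Du) (hf : (f : F) ∈ riemannRochSpace Df)
    (hv : (v : F) ∈ riemannRochSpace Dv) (huv : u ^ m = f * v) :
    ∃ β : R.A, f = iA R β := by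
  obtain ⟨α, πu, a, -, hπu, ha, hua, hau⟩ := exists_normal_form H hDu u hu hu1
  obtain ⟨β, πf, b, -, hπf, hb, hfb, hbf⟩ := exists_normal_form H hDf f hf hf1
  set v' : R.Rw := iA R (((α⁻¹ : (R.A)ˣ) : R.A) ^ m * (β : R.A)) * v with hv'
  have hv'D : (v' : F) ∈ riemannRochSpace Dv := iA_mul_mem R _ hv
  have heq : (1 + iA R πu * a) ^ m = (1 + iA R πf * b) * v' := by
    have hαinv : iA R ((α⁻¹ : (R.A)ˣ) : R.A) * iA R (α : R.A) = 1 := by
      rw [← map_mul, Units.inv_mul, map_one]
    have h1 : (iA R ((α⁻¹ : (R.A)ˣ) : R.A)) ^ m * u ^ m = (1 + iA R πu * a) ^ m := by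
      rw [← mul_pow, hua, ← mul_assoc, hαinv, one_mul]
    rw [← h1, huv, hfb, hv', map_mul, map_pow]; ring
  have hπf0 := core H hG hG₂ hdisj hL hL₂ hmk hU hF hV h1V πu πf a b v' hπu hπf ha hb hv'D hau hbf
    heq
  refine ⟨β, ?_⟩
  rw [hfb, hπf0, map_zero, zero_mul, add_zero, mul_one]

end Fermat.Agent.GJ27.Inj
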