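/-
GATE-J27 (S27) / node B6 GJ27-INJ, part 2 (helper38): **RANK-FREE TORSION INJECTIVITY**.

Abstract frame of `GH/Vocab.lean` (`R : RedData K F k Ft`, `H : LSpaceHyp R g c`, `n = g`).  NO
hypothesis on the rank of the valuation ring `R.A`, NO completeness, NO algebraic closedness of `K`.

* `eq_D0_of_nsmul_sub_isPrincipal` : chart form — `E ≥ 0` in the discs of a chart `𝔠`
  (`r_* E = Σ Q_i`) with `m • (E − 𝔠.D0)` principal, `(m : k) ≠ 0` ⟹ `E = 𝔠.D0`;
* `eq_zero_of_nsmul_eq_zero`       : **`ξ ∈ KerRed H`, `m • ξ = 0`, `(m : k) ≠ 0` ⟹ `ξ = 0`**;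
* `eq_zero_of_mem_torsion`         : the same for `ξ ∈ Pic0.torsion K F m`;
* `isPrincipal_of_nsmul`           : divisor form — `deg D = 0`, `r_* D` principal, `m • D` principal
  ⟹ `D` principal.

Proof (helper27's design 5420, B6): `ξ = [E − D0]` by `coordSpec_main`; `m (E − D0) = div f`;
`u ∈ L(D0 + D0'' − E) ∖ 0` by Riemann; `v := u ^ m / f ∈ L(m D0'')`; then `(u, f, v)` is a solution of
helper19's UPFV system for the trivial pair, all three reductions are constants, and the uniqueness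
core (`Inj/Core.const_of_upfv`) forces `f` constant, i.e. `E = D0`.
-/
import Mathlib
import Fermat.Agent.GJ27.Inj.Core
import Fermat.Agent.GH.L.Final
import Fermat.Agent.GR.W.K2.Upfv.Book
import Fermat.Agent.GR.W.K2.Upfv.Setup

set_option autoImplicit false
set_option linter.unusedSectionVars false
set_option maxHeartbeats 1000000

noncomputable section

open AlgebraicCurve Module IsLocalRing

namespace Fermat.Agent.GJ27.Inj

open Fermat.Agent.RRh45 Fermat.Agent.GJ.S37MinDiv Fermat.Agent.GJ.J1 Fermat.Agent.GJ.S37LSpace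
  Fermat.Agent.GJ.S37ROfSurj Fermat.Agent.GH Fermat.Agent.GH.L Fermat.Agent.GR.W.K2.LatticeBasis
  Fermat.Agent.GR.W.K2.Upfv Fermat.Agent.GR.W.K2

variable {K F k Ft : Type*} [Field K] [Field F] [Algebra K F] [Field k] [Field Ft] [Algebra k Ft]

/-- constants have order zero. -/
theorem ord_algebraMap_eq_zero (P : Place K F) (a : K) : P.ord (algebraMap K F a) = 0 := by
  rcases eq_or_ne a 0 with rfl | ha
  · simp
  · have hu : IsUnit (algebraMap K P.toValuationSubring a) := (Ne.isUnit ha).map _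
    have h := P.ord_coe_unit hu.unit
    rwa [IsUnit.unit_spec, P.coe_algebraMap] at h

variable {R : RedData K F k Ft} {g c : ℤ}

/-- a function of reduction `1` has an inverse in the Gauss ring. -/
theorem exists_mul_eq_one_of_red_eq_one {f : R.Rw} (hf1 : R.red f = 1) :
    ∃ f' : R.Rw, f * f' = 1 := by
  have hunit : IsUnit f := by
    by_contra h
    have hmem : f ∈ maximalIdeal R.Rw := (mem_maximalIdeal f).mpr h
    rw [← R.red_eq_zero_iff, hf1] at hmem
    exact one_ne_zero hmem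
  obtain ⟨w, hw⟩ := hunit
  exact ⟨((w⁻¹ : (R.Rw)ˣ) : R.Rw), by rw [← hw, Units.mul_inv]⟩

variable [FiniteResidues K F] [HasPrincipalDivisors K F] [Nonempty (Place K F)]
variable [FiniteResidues k Ft] [HasPrincipalDivisors k Ft] [Nonempty (Place k Ft)]
variable [Infinite k]

/-- **scaling to reduction `1`**: a nonzero function of `L(D)`, where all reductions of
`L(D) ∩ Rw` are constants, has a constant multiple in the Gauss ring which reduces to `1`. -/
theorem exists_scale_red_one (H : LSpaceHyp R g c) {D : Divisor K F} {x : F} (hx0 : x ≠ 0)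
    (hxD : x ∈ riemannRochSpace D)
    (hconst : ∀ z ∈ redSpace R D, ∃ t : k, z = algebraMap k Ft t) :
    ∃ (κ : K) (y : R.Rw), κ ≠ 0 ∧ (y : F) = algebraMap K F κ * x ∧ R.red y = 1 := by
  obtain ⟨a, ha0, hmem, hred⟩ := exists_unit_smul H hx0
  set y1 : R.Rw := ⟨_, hmem⟩ with hy1
  have hy1D : (y1 : F) ∈ riemannRochSpace D := by
    show algebraMap K F a * x ∈ _
    rw [← Algebra.smul_def]; exact Submodule.smul_mem _ _ hxD
  obtain ⟨t, ht⟩ := hconst _ (mem_redSpace.mpr ⟨y1, hy1D, rfl⟩)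
  have ht0 : t ≠ 0 := by
    rintro rfl
    rw [map_zero] at ht
    exact hred ht
  obtain ⟨d, hd⟩ := R.res_surjective t⁻¹
  have hd0 : (d : K) ≠ 0 := by
    intro h
    have : d = 0 := Subtype.ext h
    rw [this, map_zero] at hd
    exact inv_ne_zero ht0 hd.symm
  refine ⟨(d : K) * a, iA R d * y1, mul_ne_zero hd0 ha0, ?_, ?_⟩
  · rw [Subring.coe_mul, coe_iA, map_mul, mul_assoc]
  · rw [map_mul, red_iA, hd, ht, ← map_mul, inv_mul_cancel₀ ht0, map_one]

/-- **chart form of the torsion injectivity.** -/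
theorem eq_D0_of_nsmul_sub_isPrincipal (H : LSpaceHyp R g c) {n : ℕ} (hn : (n : ℤ) = g)
    (𝔠 𝔠'' : Chart H n) (hdisj : Disjoint 𝔠.supp 𝔠''.supp) {m : ℕ} (hmk : (m : k) ≠ 0)
    {E : Divisor K F} (hE0 : 0 ≤ E)
    (hEr : Finsupp.mapDomain (rOf H) E = ∑ i, Finsupp.single (𝔠.Q i) (1 : ℤ))
    (hprin : Divisor.IsPrincipal (m • (E - 𝔠.D0))) : E = 𝔠.D0 := by
  classical
  have hm0 : m ≠ 0 := by
    rintro rfl
    simp at hmk
  obtain ⟨f0, hf0, hdivf⟩ := hprin
  set G : Divisor k Ft := ∑ i, Finsupp.single (𝔠.Q i) (1 : ℤ) with hGdef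
  set G₂ : Divisor k Ft := ∑ i, Finsupp.single (𝔠''.Q i) (1 : ℤ) with hG₂def
  have hG : 0 ≤ G := Spaces.chartDiv_nonneg H 𝔠
  have hG₂ : 0 ≤ G₂ := Spaces.chartDiv_nonneg H 𝔠''
  have hL := SpecialJac.forall_const_of_finrank_eq_one hG 𝔠.hns
  have hL₂ := SpecialJac.forall_const_of_finrank_eq_one hG₂ 𝔠''.hns
  have hdisjQ : ∀ Q : Place k Ft, G Q = 0 ∨ G₂ Q = 0 := by
    intro Q
    have h := Book.hdisj_of_charts H 𝔠 𝔠'' hdisj Q
    rwa [AuxData.mapDomain_D0, AuxData.mapDomain_D0] at h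
  have hD0 : 0 ≤ 𝔠.D0 := AuxData.D0_nonneg 𝔠
  have hD0'' : 0 ≤ 𝔠''.D0 := AuxData.D0_nonneg 𝔠''
  have hEP : ∀ P : Place K F, 0 ≤ E P := fun P => Finsupp.le_def.mp hE0 P
  -- degrees
  have hdegE : Divisor.degree E = n := by
    rw [← degree_mapDomain' (rOf H) H.degF H.degFt E, hEr, hGdef, ← AuxData.mapDomain_D0 𝔠,
      degree_mapDomain' (rOf H) H.degF H.degFt, AuxData.degree_D0]
  -- the function `u`
  set Dw : Divisor K F := 𝔠.D0 + 𝔠''.D0 - E with hDw
  have hdegDw : Divisor.degree Dw = n := by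
    rw [hDw, map_sub, map_add, AuxData.degree_D0, AuxData.degree_D0, hdegE]; ring
  have hex : ∃ u0 ∈ riemannRochSpace Dw, u0 ≠ 0 := by
    by_contra hcon
    push Not at hcon
    have hbot : riemannRochSpace Dw = ⊥ := (Submodule.eq_bot_iff _).mpr hcon
    have h1 := riemann_ineq H Dw
    rw [hbot, finrank_bot, hdegDw, ← hn] at h1
    simp at h1
  obtain ⟨u0, hu0D, hu00⟩ := hex
  have hmapDw : Finsupp.mapDomain (rOf H) Dw = G₂ := by
    rw [hDw, Finsupp.mapDomain_sub, Finsupp.mapDomain_add, AuxData.mapDomain_D0,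
      AuxData.mapDomain_D0, hEr]
    abel
  have hconstW : ∀ z ∈ redSpace R Dw, ∃ t : k, z = algebraMap k Ft t := by
    intro z hz
    apply hL₂
    have := redSpace_le H Dw hz
    rwa [hmapDw] at this
  obtain ⟨κu, u, hκu, huF, hu1⟩ := exists_scale_red_one H hu00 hu0D hconstW
  -- the function `f`
  set Dφ : Divisor K F := -(m • (E - 𝔠.D0)) with hDφ
  have hf0D : f0 ∈ riemannRochSpace Dφ := by
    rw [mem_riemannRochSpace_iff]
    intro P
    right
    rw [hDφ, Finsupp.neg_apply, neg_neg, hdivf P]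
  have hmapDφ : Finsupp.mapDomain (rOf H) Dφ = 0 := by
    rw [hDφ, ← Finsupp.mapDomain.addMonoidHom_apply, map_neg, map_nsmul, map_sub,
      Finsupp.mapDomain.addMonoidHom_apply, Finsupp.mapDomain.addMonoidHom_apply, hEr,
      AuxData.mapDomain_D0, sub_self, smul_zero, neg_zero]
  have hconstφ : ∀ z ∈ redSpace R Dφ, ∃ t : k, z = algebraMap k Ft t := by
    intro z hz
    apply hL
    have := redSpace_le H Dφ hz
    rw [hmapDφ] at this
    exact riemannRochSpace_mono hG this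
  obtain ⟨κf, f, hκf, hfF, hf1⟩ := exists_scale_red_one H hf0 hf0D hconstφ
  -- orders
  have hκuF : algebraMap K F κu ≠ 0 := (map_ne_zero_iff _ (algebraMap K F).injective).mpr hκu
  have hκfF : algebraMap K F κf ≠ 0 := (map_ne_zero_iff _ (algebraMap K F).injective).mpr hκf
  have hordf : ∀ P : Place K F, P.ord (f : F) = m * (E P - 𝔠.D0 P) := by
    intro P
    rw [hfF, P.ord_mul hκfF hf0, ord_algebraMap_eq_zero, zero_add, ← hdivf P]
    simp only [Finsupp.smul_apply, Finsupp.sub_apply, nsmul_eq_mul]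
  have hordu : ∀ P : Place K F, -(Dw P) ≤ P.ord (u : F) := by
    intro P
    rw [huF, P.ord_mul hκuF hu00, ord_algebraMap_eq_zero, zero_add]
    exact (mem_riemannRochSpace_iff.mp hu0D P).resolve_left hu00
  have huF0 : (u : F) ≠ 0 := Book.coe_ne_zero_of_red_eq_one hu1
  have hfF0 : (f : F) ≠ 0 := Book.coe_ne_zero_of_red_eq_one hf1
  -- the function `v`
  obtain ⟨f', hff'⟩ := exists_mul_eq_one_of_red_eq_one hf1
  set v : R.Rw := u ^ m * f' with hv
  have huv : u ^ m = f * v := by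
    rw [hv]
    calc u ^ m = (f * f') * u ^ m := by rw [hff', one_mul]
      _ = f * (u ^ m * f') := by ring
  have hf'F : (f' : F) = (f : F)⁻¹ := by
    have : (f : F) * (f' : F) = 1 := by rw [← Subring.coe_mul, hff']; rfl
    exact eq_inv_of_mul_eq_one_right this
  have hm' : (0 : ℤ) ≤ m := Int.natCast_nonneg m
  -- memberships
  have huD : (u : F) ∈ riemannRochSpace (𝔠.D0 + 𝔠''.D0) := by
    rw [mem_riemannRochSpace_iff]
    intro P
    right
    have h1 := hordu P
    have h2 := hEP P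
    rw [hDw] at h1
    simp only [Finsupp.sub_apply, Finsupp.add_apply] at h1 ⊢
    linarith
  have hfD : (f : F) ∈ riemannRochSpace (m • 𝔠.D0) := by
    rw [mem_riemannRochSpace_iff]
    intro P
    right
    rw [hordf P, Finsupp.smul_apply, nsmul_eq_mul]
    have h2 := mul_nonneg hm' (hEP P)
    linarith
  have hvD : (v : F) ∈ riemannRochSpace (m • 𝔠''.D0) := by
    rw [mem_riemannRochSpace_iff]
    intro P
    right
    rw [hv, Subring.coe_mul, SubmonoidClass.coe_pow, hf'F,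
      P.ord_mul (pow_ne_zero _ huF0) (inv_ne_zero hfF0), Book.ord_pow_nat, Place.ord_inv, hordf P,
      Finsupp.smul_apply, nsmul_eq_mul]
    have h1 := hordu P
    rw [hDw] at h1
    simp only [Finsupp.sub_apply, Finsupp.add_apply] at h1
    have h3 := mul_le_mul_of_nonneg_left h1 hm'
    linarith
  -- reductions of the three spaces
  have hU : redSpace R (𝔠.D0 + 𝔠''.D0) ≤ riemannRochSpace (G + G₂) := by
    have := redSpace_le H (𝔠.D0 + 𝔠''.D0)
    rwa [Finsupp.mapDomain_add, AuxData.mapDomain_D0, AuxData.mapDomain_D0] at this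
  have hF : redSpace R (m • 𝔠.D0) ≤ riemannRochSpace (m • G) := by
    have := redSpace_le H (m • 𝔠.D0)
    rwa [Setup.mapDomain_nsmul_D0] at this
  have hV : redSpace R (m • 𝔠''.D0) ≤ riemannRochSpace (m • G₂) := by
    have := redSpace_le H (m • 𝔠''.D0)
    rwa [Setup.mapDomain_nsmul_D0] at this
  have h1V : (1 : F) ∈ riemannRochSpace (m • 𝔠''.D0) :=
    one_mem_riemannRochSpace (nsmul_nonneg hD0'' m)
  obtain ⟨β, hβ⟩ := const_of_upfv H hG hG₂ hdisjQ hL hL₂ hmk (add_nonneg hD0 hD0'')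
    (nsmul_nonneg hD0 m) hU hF hV h1V u f v hu1 hf1 huD hfD hvD huv
  -- conclusion
  ext P
  have h1 := hordf P
  rw [hβ, coe_iA, ord_algebraMap_eq_zero] at h1
  have hmZ : (m : ℤ) ≠ 0 := Int.natCast_ne_zero.mpr hm0
  have := (mul_eq_zero.mp h1.symm).resolve_left hmZ
  omega

/-- **RANK-FREE TORSION INJECTIVITY**: the kernel of reduction has no `m`-torsion for `m`
invertible in the residue field. -/
theorem eq_zero_of_nsmul_eq_zero (H : LSpaceHyp R g c) {n : ℕ} (hn : (n : ℤ) = g) {m : ℕ}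
    (hmk : (m : k) ≠ 0) {ξ : Pic0 K F} (hξ : ξ ∈ KerRed H) (hmξ : m • ξ = 0) : ξ = 0 := by
  classical
  obtain ⟨ch, -, hch⟩ := exists_charts_disjoint_main H (le_of_eq hn) (∅ : Finset (Place k Ft)) 2
  set 𝔠 : Chart H n := ch 0 with h𝔠
  set 𝔠'' : Chart H n := ch 1 with h𝔠''
  have hdisj : Disjoint 𝔠.supp 𝔠''.supp := hch 0 1 (by decide)
  obtain ⟨⟨τ, hτ⟩, -, -⟩ := coordSpec_main H hn 𝔠 ξ hξ
  obtain ⟨Pτ, hPτ, -, hdeg, hmkξ⟩ := hτ
  set E : Divisor K F := ∑ i, Finsupp.single (Pτ i) (1 : ℤ) with hE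
  have hE0 : 0 ≤ E := Finset.sum_nonneg fun i _ => Finsupp.single_nonneg.mpr zero_le_one
  have hEr : Finsupp.mapDomain (rOf H) E = ∑ i, Finsupp.single (𝔠.Q i) (1 : ℤ) :=
    mapDomain_sum_single H Pτ 𝔠.Q hPτ
  -- `m • (E - D0)` is principal
  have hprin : Divisor.IsPrincipal (m • (E - 𝔠.D0)) := by
    rw [← hmkξ] at hmξ
    have h1 : Pic0.mk (m • (⟨E - 𝔠.D0, hdeg⟩ : Divisor.degZero (K := K) (F := F))) = 0 := by
      rw [← hmξ]; rfl
    have h2 := (QuotientAddGroup.eq_zero_iff _).mp h1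
    rw [AddSubgroup.mem_addSubgroupOf, AddSubgroup.coe_nsmul] at h2
    exact h2
  have hED := eq_D0_of_nsmul_sub_isPrincipal H hn 𝔠 𝔠'' hdisj hmk hE0 hEr hprin
  rw [← hmkξ]
  have : (⟨E - 𝔠.D0, hdeg⟩ : Divisor.degZero (K := K) (F := F)) = 0 :=
    Subtype.ext (by
      show E - 𝔠.D0 = (0 : Divisor K F)
      exact sub_eq_zero.mpr hED)
  rw [this, Pic0.mk_zero]

/-- torsion form. -/
theorem eq_zero_of_mem_torsion (H : LSpaceHyp R g c) {n : ℕ} (hn : (n : ℤ) = g) {m : ℕ}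
    (hmk : (m : k) ≠ 0) {ξ : Pic0 K F} (hξ : ξ ∈ KerRed H) (hmξ : ξ ∈ Pic0.torsion K F m) :
    ξ = 0 := by
  refine eq_zero_of_nsmul_eq_zero H hn hmk hξ ?_
  have := Pic0.mem_torsion.mp hmξ
  rwa [natCast_zsmul] at this

/-- **divisor form**: a degree-zero divisor with principal reduction and principal `m`-th multiple
is principal. -/
theorem isPrincipal_of_nsmul (H : LSpaceHyp R g c) {n : ℕ} (hn : (n : ℤ) = g) {m : ℕ}
    (hmk : (m : k) ≠ 0) {D : Divisor K F} (hdeg : Divisor.degree D = 0)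
    (hred : Divisor.IsPrincipal (Finsupp.mapDomain (rOf H) D))
    (hmD : Divisor.IsPrincipal (m • D)) : Divisor.IsPrincipal D := by
  set Dz : Divisor.degZero (K := K) (F := F) := ⟨D, hdeg⟩ with hDz
  have hξ : Pic0.mk Dz ∈ KerRed H := ⟨Dz, rfl, hred⟩
  have hmξ : m • Pic0.mk Dz = 0 := by
    have h1 : m • Pic0.mk Dz = Pic0.mk (m • Dz) := rfl
    rw [h1]
    refine (QuotientAddGroup.eq_zero_iff _).mpr ?_
    rw [AddSubgroup.mem_addSubgroupOf, AddSubgroup.coe_nsmul]
    exact hmD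
  have h0 := eq_zero_of_nsmul_eq_zero H hn hmk hξ hmξ
  have h2 := (QuotientAddGroup.eq_zero_iff _).mp h0
  rw [AddSubgroup.mem_addSubgroupOf] at h2
  exact h2

end Fermat.Agent.GJ27.Inj
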